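/-
Row 37 (S43), block OPS, sub-block W (architect helper297).  LEAF W-G1 (proved: helper211).
GALOIS ACTION ON THE EXPLICIT EXPANSIONS `P.uSer q S` of block P of S48/BB:
if `σ ζ_q = ζ_q ^ e` then `σ (uSer q S) = uSer q (S · diag(1, e))`.

PROOF.  `coeffMap σ` is a ring homomorphism of `ℚ̄((t))`.
* `σ (zpw q a) = zpw q (a * e)`: `zpw q a = ζ ^ a.val`, `σ ζ = ζ ^ e.val`, `ζ ^ q = 1` (`isPrimitiveRoot_zetaK`), `(a * e).val ≡ a.val * e.val (q)`.
* `σ (kap q v) = kap q (tw e v)`, `σ (gCoeff q v n) = gCoeff q (tw e v) n` (`map_sum`, `apply_ite`, `map_natCast`; note `-(k * (v 1 * e)) = -(k * v 1) * e`).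
* `coeffMap σ (HahnSeries.C c) = HahnSeries.C (σ c)`, `coeffMap σ (ofPowerSeries (mk c)) = ofPowerSeries (mk (σ ∘ c))` (ext on coefficients),
  `coeffMap σ (qExpand (coeffEmb f)) = qExpand (coeffEmb f)` (`GAL.E.HeckeBasic.coeffMap_qExpand`, `coeffMap_coeffEmb`).
* `Finset.sum_image` (`tw e` is injective).
-/
import Fermat.Agent.S48.BB.P.Trans
import Fermat.Agent.GAL.E.HeckeBasic

set_option autoImplicit false

noncomputable section

namespace Fermat.Agent.S43.Ops.W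

open ModularCurve
open Fermat.Agent.S24 Fermat.Agent.S24.B Fermat.Agent.S48.BB
open Fermat.Agent.GAL.E (GQ)

variable {q : ℕ} [NeZero q]

/-- `v ↦ v · diag(1, e)`. -/
def tw (e : (ZMod q)ˣ) (v : Fin 2 → ZMod q) : Fin 2 → ZMod q := ![v 0, v 1 * (e : ZMod q)]

theorem tw_injective (e : (ZMod q)ˣ) : Function.Injective (tw e) := by
  intro v v' h
  have h0 : v 0 = v' 0 := congrFun h 0
  have h1 : v 1 * (e : ZMod q) = v' 1 * (e : ZMod q) := congrFun h 1
  funext i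
  fin_cases i
  · exact h0
  · exact e.isUnit.mul_right_cancel h1

/-- `σ` acts on `μ_q` through `e`. -/
def ActsBy (σ : GQ) (e : (ZMod q)ˣ) : Prop :=
  σ ((zetaK q : Kbarˣ) : Kbar) = ((zetaK q : Kbarˣ) : Kbar) ^ (e : ZMod q).val

theorem GalSer.zeta_pow : ((zetaK q : Kbarˣ) : Kbar) ^ q = 1 := by
  rw [← Units.val_pow_eq_pow_val, (isPrimitiveRoot_zetaK q).pow_eq_one, Units.val_one]

/-- `ζ ^ n` only depends on `n` modulo `q`. -/
theorem GalSer.zeta_pow_eq (n : ℕ) :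
    ((zetaK q : Kbarˣ) : Kbar) ^ n = P.zpw q (n : ZMod q) := by
  rw [P.zpw, ZMod.val_natCast]
  conv_lhs => rw [← Nat.div_add_mod n q, pow_add, pow_mul, GalSer.zeta_pow, one_pow, one_mul]

theorem map_zpw {σ : GQ} {e : (ZMod q)ˣ} (h : ActsBy σ e) (a : ZMod q) :
    σ (P.zpw q a) = P.zpw q (a * (e : ZMod q)) := by
  rw [P.zpw, map_pow, h, ← pow_mul, GalSer.zeta_pow_eq]
  congr 1
  rw [Nat.cast_mul, ZMod.natCast_zmod_val, ZMod.natCast_zmod_val, mul_comm]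

theorem GalSer.map_kap {σ : GQ} {e : (ZMod q)ˣ} (h : ActsBy σ e) (v : Fin 2 → ZMod q) :
    σ (P.kap q v) = P.kap q (tw e v) := by
  have h0 : tw e v 0 = v 0 := rfl
  have h1 : tw e v 1 = v 1 * (e : ZMod q) := rfl
  rw [P.kap, P.kap, h0, h1]
  split_ifs
  · rw [map_div₀, map_mul, map_add, map_pow, map_sub, map_one, map_zpw h]
  · exact map_zero σ

theorem map_gCoeff {σ : GQ} {e : (ZMod q)ˣ} (h : ActsBy σ e) (v : Fin 2 → ZMod q) (n : ℕ) :
    σ (P.gCoeff q v n) = P.gCoeff q (tw e v) n := by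
  have h0 : tw e v 0 = v 0 := rfl
  have h1 : tw e v 1 = v 1 * (e : ZMod q) := rfl
  rw [P.gCoeff, P.gCoeff]
  split_ifs
  · exact GalSer.map_kap h v
  · rw [map_sum]
    refine Finset.sum_congr rfl fun c _ => ?_
    rw [map_sub, h0, h1]
    congr 1
    · split_ifs
      · rw [map_mul, map_pow, map_natCast, map_zpw h, mul_assoc]
      · exact map_zero σ
    · split_ifs
      · rw [map_mul, map_pow, map_natCast, map_zpw h, neg_mul, mul_assoc]
      · exact map_zero σ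

theorem GalSer.coeffMap_C (σ : Kbar →+* Kbar) (c : Kbar) :
    coeffMap σ (HahnSeries.C c) = HahnSeries.C (σ c) :=
  coeffMap_single σ 0 c

/-- **W-G1.** -/
theorem coeffMap_uSer [DecidableEq (Fin 2 → ZMod q)] {σ : GQ} {e : (ZMod q)ˣ} (h : ActsBy σ e)
    (S : Finset (Fin 2 → ZMod q)) :
    coeffMap (σ : Kbar →+* Kbar) (P.uSer q S) = P.uSer q (S.image (tw e)) := by
  rw [P.uSer, P.uSer, map_mul, map_pow, map_mul, GalSer.coeffMap_C, map_sum,
    GAL.E.HeckeBasic.coeffMap_qExpand, coeffMap_coeffEmb, Finset.sum_image (tw_injective e).injOn]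
  congr 3
  · congr 1
    show σ (((q : Kbar) ^ 3)⁻¹) = _
    rw [map_inv₀, map_pow, map_natCast]
  · refine Finset.sum_congr rfl fun v _ => ?_
    rw [coeffMap_ofPowerSeries]
    congr 1
    ext n
    rw [PowerSeries.coeff_map, PowerSeries.coeff_mk, PowerSeries.coeff_mk]
    exact map_gCoeff h v n

/-- every `σ` acts on `μ_q` through some `e` -/
theorem exists_actsBy (σ : GQ) : ∃ e : (ZMod q)ˣ, ActsBy σ e := by
  have hζ : IsPrimitiveRoot ((zetaK q : Kbarˣ) : Kbar) q :=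
    IsPrimitiveRoot.coe_units_iff.2 (isPrimitiveRoot_zetaK q)
  have hσζ : IsPrimitiveRoot (σ ((zetaK q : Kbarˣ) : Kbar)) q :=
    hζ.map_of_injective (f := (σ : Kbar →+* Kbar)) σ.injective
  obtain ⟨i, hi, hcop, hpow⟩ := hζ.isPrimitiveRoot_iff.1 hσζ
  refine ⟨ZMod.unitOfCoprime i hcop, ?_⟩
  rw [ActsBy, ZMod.coe_unitOfCoprime, ZMod.val_natCast, Nat.mod_eq_of_lt hi, hpow]

theorem ActsBy.unique {σ : GQ} {e e' : (ZMod q)ˣ} (h : ActsBy σ e) (h' : ActsBy σ e') : e = e' := by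
  have hζ : IsPrimitiveRoot ((zetaK q : Kbarˣ) : Kbar) q :=
    IsPrimitiveRoot.coe_units_iff.2 (isPrimitiveRoot_zetaK q)
  have h1 : ((zetaK q : Kbarˣ) : Kbar) ^ (e : ZMod q).val =
      ((zetaK q : Kbarˣ) : Kbar) ^ (e' : ZMod q).val := by rw [← h, ← h']
  have h2 := hζ.pow_inj (ZMod.val_lt _) (ZMod.val_lt _) h1
  exact Units.ext (ZMod.val_injective q h2)

theorem ActsBy.mul {σ τ : GQ} {e e' : (ZMod q)ˣ} (h : ActsBy σ e) (h' : ActsBy τ e') :
    ActsBy (σ * τ) (e * e') := by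
  have h1 : τ ((zetaK q : Kbarˣ) : Kbar) = P.zpw q (e' : ZMod q) := h'
  show σ (τ ((zetaK q : Kbarˣ) : Kbar)) = P.zpw q ((e * e' : (ZMod q)ˣ) : ZMod q)
  rw [h1, map_zpw h, Units.val_mul, mul_comm]

end Fermat.Agent.S43.Ops.W

end
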