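/-
Row 37 (S43), block OPS, sub-block W (helper297).  THE ATKIN-LEHNER INVOLUTION `w = w_q` ON `FB (F1Q q M)`, `(q, M) = 1`.

`wMat q M = (q x, y; q M, q)`, `q x - M y = 1`, of determinant `q`;  `w hc u = u ∘ wMat`.
* `real_w`   : `real (w u) = (wG hc)⁻¹ • real u`;   `Psi_w`, `qExpand_w` (in `LL (q * M * q)`);
* `w_w`      : `w (w u) = u`;
* `w_dia`    : `w (⟨d⟩ u) = ⟨d⟩⁻¹ (w u)`;
* `exists_conj` : for `γ ∈ Γ₀(q M)` there is `δ ∈ Γ₀(q M)` with `wMat γ = δ wMat`, `d(δ) d(γ) = 1` modulo `q`.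
-/
import Fermat.Agent.S43.Ops.GL
import Fermat.Agent.S43.Ops.Dia

set_option autoImplicit false

noncomputable section

namespace Fermat.Agent.S43.Ops

open ModularCurve UpperHalfPlane CongruenceSubgroup
open Fermat.Agent.S24 Fermat.Agent.GAL.Mult Fermat.Agent.S48.A Fermat.Agent.S48.BB
open Fermat.Agent.S48.BB.U Fermat.Agent.S48.BB.T Fermat.Agent.S43.Ops.Rel
open scoped MatrixGroups

/-- shortcut instance (the generic search times out) -/
local instance instDMAW : DistribMulAction GL(2, ℝ)⁺ MM := instActionMM.toDistribMulAction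

/-- shortcut instance (the generic search times out) -/
local instance instMAW : MulAction GL(2, ℝ)⁺ MM := instDMAW.toMulAction

/-- shortcut instance (the generic search times out) -/
local instance instSAW : SemigroupAction GL(2, ℝ)⁺ MM := instMAW.toSemigroupAction

variable (q M : ℕ)

/-- Bézout coefficient -/
def wx : ℤ := Int.gcdA q M

/-- Bézout coefficient -/
def wy : ℤ := -Int.gcdB q M

/-- The Atkin-Lehner matrix `(q x, y; q M, q)`. -/
def wMat : Matrix (Fin 2) (Fin 2) ℤ := !![(q : ℤ) * wx q M, wy q M; (q : ℤ) * M, q]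

variable {q M}

theorem wxy (hc : Nat.Coprime q M) : (q : ℤ) * wx q M - M * wy q M = 1 := by
  have h := Int.gcd_eq_gcd_ab (q : ℤ) (M : ℤ)
  have h1 : Int.gcd (q : ℤ) (M : ℤ) = 1 := by
    rw [Int.gcd_natCast_natCast]; exact hc
  rw [h1] at h
  push_cast at h
  rw [wx, wy]
  linear_combination -h

theorem det_wMat (hc : Nat.Coprime q M) : (wMat q M).det = q := by
  rw [wMat, Matrix.det_fin_two_of]
  linear_combination (q : ℤ) * wxy hc

theorem det_wMat_pos [NeZero q] (hc : Nat.Coprime q M) : 0 < (wMat q M).det := by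
  rw [det_wMat hc]
  exact_mod_cast Nat.pos_of_ne_zero (NeZero.ne q)

theorem fin_two_ext (a1 a2 a3 a4 b1 b2 b3 b4 : ℤ) (h1 : a1 = b1) (h2 : a2 = b2) (h3 : a3 = b3)
    (h4 : a4 = b4) : !![a1, a2; a3, a4] = !![b1, b2; b3, b4] := by
  rw [h1, h2, h3, h4]

theorem smul_fin_two' (c a1 a2 a3 a4 : ℤ) :
    c • !![a1, a2; a3, a4] = !![c * a1, c * a2; c * a3, c * a4] := by
  ext i j
  fin_cases i <;> fin_cases j <;> simp

/-- **Conjugation by `wMat`.** -/
theorem exists_conj (hc : Nat.Coprime q M) {γ : SL(2, ℤ)} (hγ : γ ∈ Gamma0 (q * M)) :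
    ∃ δ ∈ Gamma0 (q * M), dd q δ * dd q γ = 1 ∧ wMat q M * γ.1 = δ.1 * wMat q M := by
  have hxy := wxy hc
  set x := wx q M with hx
  set y := wy q M with hy
  rw [Gamma0_mem, ZMod.intCast_zmod_eq_zero_iff_dvd] at hγ
  obtain ⟨c₁, hc₁⟩ := hγ
  push_cast at hc₁
  obtain ⟨a, b, c, d, hγe⟩ : ∃ a b c d : ℤ, γ.1 = !![a, b; c, d] :=
    ⟨_, _, _, _, Matrix.eta_fin_two γ.1⟩
  have hcc : c = (q : ℤ) * M * c₁ := by
    have : γ.1 1 0 = c := by rw [hγe]; rfl
    rw [← this]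
    exact hc₁
  have hdd : γ 1 1 = d := by
    show γ.1 1 1 = d
    rw [hγe]; rfl
  have hdet : a * d - b * ((q : ℤ) * M * c₁) = 1 := by
    have h := γ.2
    rw [hγe, Matrix.det_fin_two_of, hcc] at h
    exact h
  let δ : SL(2, ℤ) := ⟨!![((q : ℤ) * x * a + y * (q * M * c₁)) - (q * x * b + y * d) * M,
      -x * a * y - y ^ 2 * M * c₁ + q * x ^ 2 * b + x * y * d;
      (q : ℤ) * M * (a + q * c₁ - M * b - d),
      -M * a * y - q * M * c₁ * y + q * M * b * x + q * d * x], by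
    rw [Matrix.det_fin_two_of]
    linear_combination (((q : ℤ) * x - M * y) + 1) * (a * d - b * ((q : ℤ) * M * c₁)) * hxy + hdet⟩
  refine ⟨δ, ?_, ?_, ?_⟩
  · rw [Gamma0_mem, ZMod.intCast_zmod_eq_zero_iff_dvd]
    refine ⟨a + q * c₁ - M * b - d, ?_⟩
    show (q : ℤ) * M * (a + q * c₁ - M * b - d) = _
    push_cast
    ring
  · have hq0 : ((q : ℕ) : ZMod q) = 0 := ZMod.natCast_self q
    have h1 := congrArg (Int.cast : ℤ → ZMod q) hxy
    have h2 := congrArg (Int.cast : ℤ → ZMod q) hdet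
    push_cast at h1 h2
    have e1 : dd q δ = ((-M * a * y - q * M * c₁ * y + q * M * b * x + q * d * x : ℤ) : ZMod q) := rfl
    rw [e1, dd, hdd]
    push_cast
    linear_combination ((a : ZMod q) * d) * h1 + h2 +
      (-(M : ZMod q) * c₁ * y * d + M * b * x * d + x * d ^ 2 - a * d * x + b * M * c₁) * hq0
  · show wMat q M * γ.1 = !![_, _; _, _] * wMat q M
    rw [hγe, wMat, ← hx, ← hy, hcc, Matrix.mul_fin_two, Matrix.mul_fin_two]
    refine fin_two_ext _ _ _ _ _ _ _ _ ?_ ?_ ?_ ?_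
    · linear_combination (-((q : ℤ) * x * a + y * (q * M * c₁))) * hxy
    · linear_combination (-((q : ℤ) * x * b + y * d)) * hxy
    · linear_combination (-((q : ℤ) * M * a + q * (q * M * c₁))) * hxy
    · linear_combination (-((q : ℤ) * M * b + q * d)) * hxy

variable [NeZero q] [NeZero M]

/-- `wMat` in `GL(2,ℝ)⁺`. -/
def wG (hc : Nat.Coprime q M) : GL(2, ℝ)⁺ := glI (wMat q M) (det_wMat_pos hc)

theorem isIntLevel_wG (hc : Nat.Coprime q M) : IsIntLevel (q * M) (q * M * q) (wG hc) :=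
  isIntLevel_glI _ _ (by rw [det_wMat hc]; push_cast; exact dvd_rfl)

theorem wG_mul_sl (hc : Nat.Coprime q M) {γ δ : SL(2, ℤ)} (h : wMat q M * γ.1 = δ.1 * wMat q M) :
    wG hc * sl γ = sl δ * wG hc := glI_mul_sl _ _ h

theorem glNrm_wG (hc : Nat.Coprime q M) : GLNrm (H1 q M) (wG hc) := by
  intro γ hγ
  rw [mem_H1_iff'] at hγ
  obtain ⟨δ, hδ, hdd, h⟩ := exists_conj hc hγ.1
  refine ⟨δ, mem_H1_iff'.2 ⟨hδ, ?_⟩, wG_mul_sl hc h⟩
  rcases hγ.2 with h1 | h1 <;> rw [h1] at hdd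
  · left; simpa using hdd
  · right
    have : dd q δ = -(dd q δ * -1) := by ring
    rw [this, hdd]

theorem eqv_wG_sq (hc : Nat.Coprime q M) : Eqv (H1 q M) (wG hc * wG hc) 1 := by
  have hxy := wxy hc
  let δ : SL(2, ℤ) := ⟨!![(q : ℤ) * wx q M ^ 2 + M * wy q M, wy q M * (wx q M + 1);
      (q : ℤ) * M * (wx q M + 1), M * wy q M + q], by
    rw [Matrix.det_fin_two_of]
    linear_combination (((q : ℤ) * wx q M - M * wy q M) + 1) * hxy⟩
  have hδ : δ ∈ H1 q M := by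
    rw [mem_H1_iff']
    constructor
    · rw [Gamma0_mem, ZMod.intCast_zmod_eq_zero_iff_dvd]
      refine ⟨wx q M + 1, ?_⟩
      show (q : ℤ) * M * (wx q M + 1) = _
      push_cast
      ring
    · right
      have hq0 : ((q : ℕ) : ZMod q) = 0 := ZMod.natCast_self q
      have h1 := congrArg (Int.cast : ℤ → ZMod q) hxy
      push_cast at h1
      have e1 : dd q δ = ((M * wy q M + q : ℤ) : ZMod q) := rfl
      rw [e1]
      push_cast
      linear_combination (-1 : ZMod q) * h1 + (1 + (wx q M : ZMod q)) * hq0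
  refine eqv_one_of_mul _ _ hδ (c := (q : ℤ)) (by exact_mod_cast NeZero.ne q) ?_
  show wMat q M * wMat q M = (q : ℤ) • !![_, _; _, _]
  rw [wMat, Matrix.mul_fin_two, smul_fin_two']
  refine fin_two_ext _ _ _ _ _ _ _ _ ?_ ?_ ?_ ?_ <;> ring

/-- **The Atkin-Lehner involution** `w_q` of `FB (F1Q q M)`. -/
def w (hc : Nat.Coprime q M) : FB (F1Q q M) ≃ₐ[Kbar] FB (F1Q q M) :=
  glInv (hL1 q M) (rfl : q * M * q = q * M * q) (isIntLevel_wG hc) (glNrm_wG hc) (eqv_wG_sq hc)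

theorem real_w (hc : Nat.Coprime q M) (u : FB (F1Q q M)) :
    real (hL1 q M) (w hc u) = (wG hc)⁻¹ • real (hL1 q M) u :=
  real_glHom (hL1 q M) rfl (isIntLevel_wG hc) (glNrm_wG hc) u

theorem qExpand_w (hc : Nat.Coprime q M) (u : FB (F1Q q M)) :
    qExpand Kbar (q * M * q) ((w hc u : FB (F1Q q M)) : LaurentSeries Kbar) =
      texpLL (q * M * q) (compLL (wG hc) (isIntLevel_wG hc) (Psi (hL1 q M) u)) :=
  qExpand_glHom (hL1 q M) rfl (isIntLevel_wG hc) (glNrm_wG hc) u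

theorem w_w (hc : Nat.Coprime q M) (u : FB (F1Q q M)) : w hc (w hc u) = u :=
  glHom_glHom_of_eqv (hL1 q M) rfl (isIntLevel_wG hc) (glNrm_wG hc) (isIntLevel_wG hc)
    (glNrm_wG hc) (eqv_wG_sq hc) u

/-- `w ⟨d⟩ = ⟨d⟩⁻¹ w`. -/
theorem w_dia (hc : Nat.Coprime q M) (d : (ZMod q)ˣ) (u : FB (F1Q q M)) :
    w hc (dia q M d u) = dia q M d⁻¹ (w hc u) := by
  apply real_injective (hL1 q M)
  obtain ⟨δ, hδ, hdd, h⟩ := exists_conj hc (sg_mem q M d⁻¹)
  rw [dd_sg] at hdd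
  have hδd : dd q δ = d := by
    have h1 : dd q δ = dd q δ * (((d⁻¹ : (ZMod q)ˣ) : ZMod q) * (d : ZMod q)) := by
      rw [Units.inv_mul, mul_one]
    rw [h1, ← mul_assoc, hdd, one_mul]
  rw [real_w, real_dia_of d hδ hδd, real_dia_of d⁻¹ (sg_mem q M d⁻¹) (dd_sg q M d⁻¹), real_w,
    ← mul_smul, ← mul_smul, ← mul_inv_rev, ← mul_inv_rev, wG_mul_sl hc h]

end Fermat.Agent.S43.Ops

end
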