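/-
Row 37 (S43), block OPS, sub-block W (helper297).  THE INSTANCES consumed by TRIV / GLUE.
* `eps q σ : (ZMod q)ˣ` : the cyclotomic character modulo `q` (`σ ζ_q = ζ_q ^ eps q σ`), `eps_mul`, `eps_eq_one`, `eps_eq_of`,
  `exists_pow_eq_of_tame` (the `σ` of `Tame.TameStatement` has `eps q σ` a generator of `(ZMod q)ˣ`);
* `wDat hq hc : Triv.WDat q M`  (`w := w hc`, `e σ := (eps q σ)⁻¹`);   `w0Dat hq hc : Triv.W0Dat (wDat hq hc)`.
-/
import Fermat.Agent.S43.Ops.W.Twist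
import Fermat.Agent.S43.Triv.Contract

set_option autoImplicit false

noncomputable section

namespace Fermat.Agent.S43.Ops

open ModularCurve
open Fermat.Agent.S24 Fermat.Agent.S24.B Fermat.Agent.S48.BB Fermat.Agent.S48.BB.E
open Fermat.Agent.GAL.E (GQ)

variable (q : ℕ) [NeZero q]

/-- The cyclotomic character modulo `q`. -/
def eps (σ : GQ) : (ZMod q)ˣ := (W.exists_actsBy (q := q) σ).choose

theorem actsBy_eps (σ : GQ) : W.ActsBy σ (eps q σ) := (W.exists_actsBy (q := q) σ).choose_spec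

variable {q}

theorem eps_eq {σ : GQ} {e : (ZMod q)ˣ} (h : W.ActsBy σ e) : eps q σ = e :=
  (actsBy_eps q σ).unique h

theorem eps_mul (σ τ : GQ) : eps q (σ * τ) = eps q σ * eps q τ :=
  eps_eq ((actsBy_eps q σ).mul (actsBy_eps q τ))

theorem eps_eq_one {σ : GQ} (h : σ ((zetaK q : Kbarˣ) : Kbar) = ((zetaK q : Kbarˣ) : Kbar)) :
    eps q σ = 1 := by
  apply eps_eq
  rw [W.ActsBy, h, W.GalSer.zeta_pow_eq, ZMod.natCast_zmod_val, Units.val_one]
  have h1 := W.GalSer.zeta_pow_eq (q := q) 1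
  rw [pow_one, Nat.cast_one] at h1
  exact h1

theorem eps_one : eps q (1 : GQ) = 1 := eps_eq_one rfl

theorem eps_pow (σ : GQ) (j : ℕ) : eps q (σ ^ j) = eps q σ ^ j := by
  induction j with
  | zero => rw [pow_zero, pow_zero, eps_one]
  | succ j ih => rw [pow_succ, pow_succ, eps_mul, ih]

/-- `σ ζ = ζ ^ a` determines `eps q σ`. -/
theorem coe_eps_of {σ : GQ} {a : ℕ}
    (h : σ ((zetaK q : Kbarˣ) : Kbar) = ((zetaK q : Kbarˣ) : Kbar) ^ a) :
    ((eps q σ : (ZMod q)ˣ) : ZMod q) = (a : ZMod q) := by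
  have h1 := actsBy_eps q σ
  rw [W.ActsBy, h] at h1
  have hζ : IsPrimitiveRoot ((zetaK q : Kbarˣ) : Kbar) q :=
    IsPrimitiveRoot.coe_units_iff.2 (isPrimitiveRoot_zetaK q)
  rw [W.GalSer.zeta_pow_eq a, P.zpw] at h1
  have h2 := hζ.pow_inj (ZMod.val_lt _) (ZMod.val_lt _) h1
  exact (ZMod.val_injective q h2).symm

/-- the `σ` produced by `Tame.TameStatement` (with `ζ = ζ_q`) has `eps q σ` a generator of `(ZMod q)ˣ` -/
theorem exists_pow_eq_of_tame {σ : GQ}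
    (h : ∀ a : ℕ, ¬ q ∣ a → ∃ j : ℕ,
      (σ ^ j) ((zetaK q : Kbarˣ) : Kbar) = ((zetaK q : Kbarˣ) : Kbar) ^ a)
    (hq : q.Prime) (d : (ZMod q)ˣ) : ∃ j : ℕ, d = eps q σ ^ j := by
  have hd : ¬ q ∣ (d : ZMod q).val := by
    intro h0
    have h1 : ((d : ZMod q).val : ZMod q) = 0 := (ZMod.natCast_eq_zero_iff _ _).2 h0
    rw [ZMod.natCast_zmod_val] at h1
    have : Fact q.Prime := ⟨hq⟩
    exact d.ne_zero h1
  obtain ⟨j, hj⟩ := h _ hd
  refine ⟨j, Units.ext ?_⟩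
  rw [← eps_pow, coe_eps_of hj, ZMod.natCast_zmod_val]

variable {M : ℕ} [NeZero M]

/-- **The Atkin-Lehner datum at the level `F1Q q M`.** -/
def wDat (hq : q.Prime) (hc : Nat.Coprime q M) : Triv.WDat q M where
  w := w hc
  e σ := (eps q σ)⁻¹
  w_dia := w_dia hc
  galF_w σ u := galF_w hq hc (actsBy_eps q σ) u

/-- **The Atkin-Lehner datum at the level `Γ₀(q M)`.** -/
def w0Dat (hq : q.Prime) (hc : Nat.Coprime q M) : Triv.W0Dat (wDat hq hc) where
  w0 := w0 hc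
  galF_w0 σ u := galF_w0 hq hc σ u
  compat u := w_alphaB hc u

theorem wDat_w (hq : q.Prime) (hc : Nat.Coprime q M) : (wDat hq hc).w = w hc := rfl

theorem wDat_e (hq : q.Prime) (hc : Nat.Coprime q M) (σ : GQ) :
    (wDat hq hc).e σ = (eps q σ)⁻¹ := rfl

theorem w0Dat_w0 (hq : q.Prime) (hc : Nat.Coprime q M) : (w0Dat hq hc).w0 = w0 hc := rfl

end Fermat.Agent.S43.Ops

end
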