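/-
Row 37 (S43), block OPS, sub-block W (helper297).  THE ATKIN-LEHNER INVOLUTION AT THE LEVEL `Γ₀(q M)`.
`w0 hc : FB F0 ≃ₐ[ℚ̄] FB F0`, `F0 = modularFunctionFieldFull (q * M)`, `w0 u = u ∘ wMat`;
* `real_w0`, `w0_w0`;   `w_alphaB : w (π^* v) = π^* (w0 v)`.
-/
import Fermat.Agent.S43.Ops.W.Defs

set_option autoImplicit false

noncomputable section

namespace Fermat.Agent.S43.Ops

open ModularCurve UpperHalfPlane CongruenceSubgroup
open Fermat.Agent.S24 Fermat.Agent.GAL.Mult Fermat.Agent.S48.A Fermat.Agent.S48.BB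
open Fermat.Agent.S48.BB.U Fermat.Agent.S48.BB.T Fermat.Agent.S43.Ops.Rel
open scoped MatrixGroups

variable {q M : ℕ} [NeZero q] [NeZero M]

theorem glNrm_wG0 (hc : Nat.Coprime q M) : GLNrm (Gamma0 (q * M)) (wG hc) := by
  intro γ hγ
  obtain ⟨δ, hδ, -, h⟩ := exists_conj hc hγ
  exact ⟨δ, hδ, wG_mul_sl hc h⟩

theorem eqv_wG_sq0 (hc : Nat.Coprime q M) : Eqv (Gamma0 (q * M)) (wG hc * wG hc) 1 := by
  obtain ⟨δ, hδ, h⟩ := eqv_wG_sq hc
  exact ⟨δ, H1_le_Gamma0' hδ, h⟩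

/-- **The Atkin-Lehner involution** `w_q` of the function field of `Γ₀(q M)`. -/
def w0 (hc : Nat.Coprime q M) :
    FB (modularFunctionFieldFull (q * M)) ≃ₐ[Kbar] FB (modularFunctionFieldFull (q * M)) :=
  glInv (hL0 q M) (rfl : q * M * q = q * M * q) (isIntLevel_wG hc) (glNrm_wG0 hc) (eqv_wG_sq0 hc)

theorem real_w0 (hc : Nat.Coprime q M) (u : FB (modularFunctionFieldFull (q * M))) :
    real (hL0 q M) (w0 hc u) = (wG hc)⁻¹ • real (hL0 q M) u :=
  real_glHom (hL0 q M) rfl (isIntLevel_wG hc) (glNrm_wG0 hc) u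

theorem qExpand_w0 (hc : Nat.Coprime q M) (u : FB (modularFunctionFieldFull (q * M))) :
    qExpand Kbar (q * M * q) ((w0 hc u : FB (modularFunctionFieldFull (q * M))) : LaurentSeries Kbar) =
      texpLL (q * M * q) (compLL (wG hc) (isIntLevel_wG hc) (Psi (hL0 q M) u)) :=
  qExpand_glHom (hL0 q M) rfl (isIntLevel_wG hc) (glNrm_wG0 hc) u

theorem w0_w0 (hc : Nat.Coprime q M) (u : FB (modularFunctionFieldFull (q * M))) :
    w0 hc (w0 hc u) = u :=
  glHom_glHom_of_eqv (hL0 q M) rfl (isIntLevel_wG hc) (glNrm_wG0 hc) (isIntLevel_wG hc)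
    (glNrm_wG0 hc) (eqv_wG_sq0 hc) u

theorem real_alphaB01 (v : FB (modularFunctionFieldFull (q * M))) :
    real (hL1 q M) (alphaB (F0_le_F1 q M) v) = real (hL0 q M) v := by
  rw [U.real_apply, Psi_alphaB (hL0 q M) (hL1 q M), U.real_apply]

/-- `w π^* = π^* w0`. -/
theorem w_alphaB (hc : Nat.Coprime q M) (v : FB (modularFunctionFieldFull (q * M))) :
    w hc (alphaB (F0_le_F1 q M) v) = alphaB (F0_le_F1 q M) (w0 hc v) := by
  apply real_injective (hL1 q M)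
  rw [real_w, real_alphaB01, real_alphaB01, real_w0]

end Fermat.Agent.S43.Ops

end
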