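/-
Row 37 (S43), block OPS, sub-block W (architect helper297).  LEAF W-A2 (owner: helper84).
`w0` MAPS THE GENERATORS `j(q^d)`, `d ∣ q M`, OF `F0` TO RATIONAL ELEMENTS: `j(d · wMat τ) = j(d' τ)`, `d' = d q` if `d ∣ M`, `d' = d / q` if `q ∣ d`.

PROOF.  `wMat = (q x, y; q M, q)`, `q x - M y = 1`.
* `d ∣ M`, `M = d m`:  `diag(d,1) wMat = (x, d y; m, q) * diag(d q, 1)`, `(x, d y; m, q) ∈ SL(2,ℤ)`;
* `d = q d₁`, `M = d₁ m`: `diag(d,1) wMat = q • ((q x, d₁ y; m, 1) * diag(d₁, 1))`, `(q x, d₁ y; m, 1) ∈ SL(2,ℤ)`.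
* `real hL (ofQ ⟨qExpand ℚ d jq, _⟩)` is the function `τ ↦ jfun (dilMat d • τ)` (`real_ofQ_jd`); `jfun` is `SL(2,ℤ)`-invariant.
-/
import Fermat.Agent.S43.Ops.W.Zero

set_option autoImplicit false

noncomputable section

namespace Fermat.Agent.S43.Ops

open ModularCurve UpperHalfPlane CongruenceSubgroup
open Fermat.Agent.S24 Fermat.Agent.S24.B Fermat.Agent.GAL.Mult Fermat.Agent.S48.BB
open Fermat.Agent.S48.BB.U Fermat.Agent.S48.BB.T
open scoped MatrixGroups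

/-- shortcut instance (the generic search times out) -/
local instance instDMAJd : DistribMulAction GL(2, ℝ)⁺ MM := instActionMM.toDistribMulAction

/-- shortcut instance (the generic search times out) -/
local instance instMAJd : MulAction GL(2, ℝ)⁺ MM := instDMAJd.toMulAction

/-- shortcut instance (the generic search times out) -/
local instance instSAJd : SemigroupAction GL(2, ℝ)⁺ MM := instMAJd.toSemigroupAction

/-- the integral matrix `diag(d, 1)` -/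
def dMat (d : ℕ) : Matrix (Fin 2) (Fin 2) ℤ := !![(d : ℤ), 0; 0, 1]

theorem det_dMat_pos (d : ℕ) [NeZero d] : 0 < (dMat d).det := by
  rw [dMat, Matrix.det_fin_two_of]
  have : (0 : ℤ) < d := by exact_mod_cast Nat.pos_of_ne_zero (NeZero.ne d)
  linarith

theorem coe_glI_dMat (d : ℕ) [NeZero d] :
    ((glI (dMat d) (det_dMat_pos d) : GL(2, ℝ)⁺) : GL (Fin 2) ℝ) = dilMat d :=
  Units.ext (by rw [coe_glI, coe_dilMat, dMat])

/-- `j(d₁ A τ) = j(d₂ τ)` if `diag(d₁,1) A = c • γ diag(d₂,1)`, `γ ∈ SL(2,ℤ)`. -/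
theorem jfun_dilMat_glI_smul {d₁ d₂ : ℕ} [NeZero d₁] [NeZero d₂] {A : Matrix (Fin 2) (Fin 2) ℤ}
    (hA : 0 < A.det) (γ : SL(2, ℤ)) {c : ℤ} (hc : c ≠ 0)
    (h : dMat d₁ * A = c • (γ.1 * dMat d₂)) (τ : ℍ) :
    jfun (dilMat d₁ • (glI A hA • τ)) = jfun (dilMat d₂ • τ) := by
  have h1 : (glI (dMat d₁) (det_dMat_pos d₁) * glI A hA) • τ =
      (sl γ * glI (dMat d₂) (det_dMat_pos d₂)) • τ := by
    refine Rel.smul_eq_of_val_eq (c := (c : ℝ)) (by exact_mod_cast hc) ?_ τ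
    show (((glI (dMat d₁) (det_dMat_pos d₁) : GL(2, ℝ)⁺) : GL (Fin 2) ℝ) :
        Matrix (Fin 2) (Fin 2) ℝ) * (((glI A hA : GL(2, ℝ)⁺) : GL (Fin 2) ℝ) :
        Matrix (Fin 2) (Fin 2) ℝ) = (c : ℝ) • ((((sl γ : GL(2, ℝ)⁺) : GL (Fin 2) ℝ) :
        Matrix (Fin 2) (Fin 2) ℝ) * (((glI (dMat d₂) (det_dMat_pos d₂) : GL(2, ℝ)⁺) :
        GL (Fin 2) ℝ) : Matrix (Fin 2) (Fin 2) ℝ))
    rw [coe_glI, coe_glI, coe_glI, coe_sl_val, ← map_mul_int, ← map_mul_int, h]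
    ext i j
    simp only [Matrix.map_apply, Matrix.smul_apply, smul_eq_mul, Int.cast_mul]
  rw [mul_smul, mul_smul] at h1
  have h2 : dilMat d₁ • (glI A hA • τ) = glI (dMat d₁) (det_dMat_pos d₁) • (glI A hA • τ) := by
    rw [← coe_glI_dMat]; rfl
  have h3 : dilMat d₂ • τ = glI (dMat d₂) (det_dMat_pos d₂) • τ := by
    rw [← coe_glI_dMat]; rfl
  rw [h2, h1, sl_smul, Stubs.jfun_smul, h3]

variable {F₀ : IntermediateField ℚ (LaurentSeries ℚ)} {H : Subgroup SL(2, ℤ)} {N : ℕ} [NeZero N]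

/-- `j(q^d)` is the function `τ ↦ j(d τ)`. -/
theorem real_ofQ_jd (hL : IsLvl F₀ H N) (f : F₀) (d : ℕ) [NeZero d] (hd : d ∣ N)
    (hf : f.1 = qExpand ℚ d jq) :
    real hL (ofQ f) = algebraMap Hol MM (abToHol N (alToAB N (jd N d hd))) := by
  rw [U.real_apply, Psi_ofQ_eq hL f (g := PsiL N (JF N d hd))
    (by rw [hf]; exact W.realises_PsiL_JF N d hd), PsiL_apply, Psi_JF, lnToLL_algebraMap,
    embL_algebraMap]

/-- generic form: `u ↦ u ∘ A` maps `j(q^d₁)` to `j(q^d₂)`. -/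
theorem smul_real_ofQ_jd (hL : IsLvl F₀ H N) (f f' : F₀) (d₁ d₂ : ℕ) [NeZero d₁] [NeZero d₂]
    (hd₁ : d₁ ∣ N) (hd₂ : d₂ ∣ N) (hf : f.1 = qExpand ℚ d₁ jq) (hf' : f'.1 = qExpand ℚ d₂ jq)
    {A : Matrix (Fin 2) (Fin 2) ℤ} (hA : 0 < A.det) (γ : SL(2, ℤ)) {c : ℤ} (hc : c ≠ 0)
    (h : dMat d₁ * A = c • (γ.1 * dMat d₂)) :
    (glI A hA)⁻¹ • real hL (ofQ f) = real hL (ofQ f') := by
  rw [real_ofQ_jd hL f d₁ hd₁ hf, real_ofQ_jd hL f' d₂ hd₂ hf', smul_algebraMap_Hol]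
  refine congrArg (algebraMap Hol MM) (Subtype.ext (funext fun τ => ?_))
  rw [smul_Hol_apply, inv_inv]
  exact jfun_dilMat_glI_smul hA γ hc h τ

variable {q M : ℕ} [NeZero q] [NeZero M]

/-- **W-A2.** -/
theorem exists_rat_w0 (hq : q.Prime) (hc : Nat.Coprime q M) (f : modularFunctionFieldFull (q * M))
    (hf : f.1 ∈ divisorExpansions (q * M)) :
    ∃ f' : modularFunctionFieldFull (q * M), w0 hc (ofQ f) = ofQ f' := by
  obtain ⟨d, hd0, hd, hfd⟩ := hf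
  have hxy := wxy hc
  by_cases hqd : q ∣ d
  · obtain ⟨d₁, rfl⟩ := hqd
    have hd₁ : d₁ ∣ M := Nat.dvd_of_mul_dvd_mul_left hq.pos hd
    obtain ⟨m, hm⟩ := hd₁
    have : NeZero d₁ := ⟨fun h => NeZero.ne (q * d₁) (by rw [h, mul_zero])⟩
    have hd' : d₁ ∣ q * M := Dvd.dvd.mul_left ⟨m, hm⟩ q
    refine ⟨⟨qExpand ℚ d₁ jq, jqd_mem_full (q * M) hd'⟩, Rel.real_injective (hL0 q M) ?_⟩
    rw [real_w0]
    let γ : SL(2, ℤ) := ⟨!![(q : ℤ) * wx q M, d₁ * wy q M; (m : ℤ), 1], by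
      rw [Matrix.det_fin_two_of]
      have : (M : ℤ) = d₁ * m := by exact_mod_cast hm
      rw [this] at hxy
      linear_combination hxy⟩
    refine smul_real_ofQ_jd (hL0 q M) f _ (q * d₁) d₁ hd hd' hfd rfl (det_wMat_pos hc) γ
      (c := (q : ℤ)) (by exact_mod_cast NeZero.ne q) ?_
    show dMat (q * d₁) * wMat q M = (q : ℤ) • (!![_, _; _, _] * dMat d₁)
    rw [dMat, dMat, wMat, Matrix.mul_fin_two, Matrix.mul_fin_two, smul_fin_two']
    have : (M : ℤ) = d₁ * m := by exact_mod_cast hm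
    refine fin_two_ext _ _ _ _ _ _ _ _ ?_ ?_ ?_ ?_ <;> push_cast <;> (try rw [this]) <;> ring
  · have hd₁ : d ∣ M :=
      Nat.Coprime.dvd_of_dvd_mul_left ((Nat.Prime.coprime_iff_not_dvd hq).2 hqd).symm hd
    obtain ⟨m, hm⟩ := hd₁
    have : NeZero (d * q) := ⟨mul_ne_zero (NeZero.ne d) (NeZero.ne q)⟩
    have hd' : d * q ∣ q * M := by
      rw [mul_comm d q]
      exact Nat.mul_dvd_mul_left q ⟨m, hm⟩
    refine ⟨⟨qExpand ℚ (d * q) jq, jqd_mem_full (q * M) hd'⟩, Rel.real_injective (hL0 q M) ?_⟩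
    rw [real_w0]
    let γ : SL(2, ℤ) := ⟨!![wx q M, d * wy q M; (m : ℤ), q], by
      rw [Matrix.det_fin_two_of]
      have : (M : ℤ) = d * m := by exact_mod_cast hm
      rw [this] at hxy
      linear_combination hxy⟩
    refine smul_real_ofQ_jd (hL0 q M) f _ d (d * q) hd hd' hfd rfl (det_wMat_pos hc) γ
      (c := (1 : ℤ)) one_ne_zero ?_
    show dMat d * wMat q M = (1 : ℤ) • (!![_, _; _, _] * dMat (d * q))
    rw [dMat, dMat, wMat, Matrix.mul_fin_two, Matrix.mul_fin_two, smul_fin_two']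
    have : (M : ℤ) = d * m := by exact_mod_cast hm
    refine fin_two_ext _ _ _ _ _ _ _ _ ?_ ?_ ?_ ?_ <;> push_cast <;> (try rw [this]) <;> ring

end Fermat.Agent.S43.Ops

end
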