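/-
Row 37 (S43), block OPS, sub-block W (architect helper297).  LEAF W-A1 (owner: helper86).
THE `q`-EXPANSION OF `w u_a`:  `w u_a = P.uSer q {v | v 1 = a y}`  (`wMat q M = (q x, y; q M, q)`).

PROOF.  Let `γ_w = (x, y; M, q) ∈ SL(2,ℤ)`, so `wMat = γ_w * diag(q, 1)` and `wG hc • τ = γ_w • triMat q 0 1 • τ`.
1. `P.ua_smul_eq`, `P.colSet_eq_redSet`, `P.image_redSet`: `ua q a (γ_w • τ') = F τ'`,
   `F τ' := (eisSet (redSet q S) 3 τ' / C3) ^ 4 / discriminant τ'`, `S = {v γ_w | v 0 = a} = {(a x + v₁ M, a y)} = rowS q (a y)` (`M` is a unit mod `q`).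
2. `P.hasTExp_redSet q (rowS q b) h0 : HasTExp q F (P.uSer q (rowS q b))`  (`0 ∉ rowS q b` since `b = a y ≠ 0`: `y` is a unit mod `q`).
3. `Lib.EtaUnit.hasTExp_tri'` (`M := q`, `N := q * M * q`, `a := q`, `b := 0`, `d := 1`, `e := q * M * q`, `ξ := 1`, `twist_one`):
   `HasTExp (q * M * q) (fun τ => F (triMat q 0 1 • τ)) (qExpand (q * M * q) (P.uSer q (rowS q b)))`.
4. `qExpand_w`, `Psi_uB`, `P.uaLL`, `T.compLL_algebraMap`, `texpLL_algebraMap`, `texpB_eq`, `qExpand_injective`.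
-/
import Fermat.Agent.S43.Ops.W.Defs
import Fermat.Agent.S48.BB.P.Trans
import Fermat.Agent.Lib.EtaUnit.TExp.Tri
import Fermat.Agent.GAL.E.HeckeBasic

set_option autoImplicit false
set_option linter.unusedSimpArgs false
set_option linter.unusedSectionVars false

noncomputable section

namespace Fermat.Agent.S43.Ops

open ModularCurve UpperHalfPlane CongruenceSubgroup
open Fermat.Agent.S24 Fermat.Agent.S24.B Fermat.Agent.GAL.Mult Fermat.Agent.S48.BB
open Fermat.Agent.S48.BB.U Fermat.Agent.S48.BB.T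
open scoped MatrixGroups
open Matrix (vecMul)
open scoped Matrix

variable {q M : ℕ} [NeZero q] [NeZero M]

variable (q) in
/-- the row `{v | v 1 = b}` of `(ℤ/q)²` -/
def rowS (b : ZMod q) : Finset (Fin 2 → ZMod q) := Finset.univ.filter fun v => v 1 = b

theorem mem_rowS {b : ZMod q} {v : Fin 2 → ZMod q} : v ∈ rowS q b ↔ v 1 = b := by
  simp [rowS]

namespace Ser

/-- `γ_w = (x, y; M, q)`. -/
def gw (hc : Nat.Coprime q M) : SL(2, ℤ) :=
  ⟨!![wx q M, wy q M; (M : ℤ), (q : ℤ)], by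
    rw [Matrix.det_fin_two_of]
    linear_combination wxy hc⟩

theorem qpos : (0 : ℤ) < (q : ℤ) := by exact_mod_cast Nat.pos_of_ne_zero (NeZero.ne q)

/-- `wMat τ = γ_w (q τ)`. -/
theorem wG_smul (hc : Nat.Coprime q M) (τ : ℍ) :
    wG hc • τ = gw hc • (triMat (q : ℤ) 0 1 qpos one_pos • τ) := by
  apply UpperHalfPlane.ext
  rw [coe_specialLinearGroup_apply, coe_triMat_smul]
  show ((((wG hc : GL(2, ℝ)⁺) : GL (Fin 2) ℝ) • τ : ℍ) : ℂ) = _
  rw [coe_smul_of_det_pos (wG hc).2, num, denom, wG, coe_glI, wMat]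
  have hq : (q : ℂ) ≠ 0 := by exact_mod_cast NeZero.ne q
  simp only [gw, Matrix.map_apply, Matrix.of_apply, Matrix.cons_val_zero, Matrix.cons_val_one,
    Matrix.cons_val', Matrix.cons_val_fin_one, eq_intCast]
  push_cast
  congr 1 <;> ring

/-- units modulo `q` -/
theorem My (hc : Nat.Coprime q M) : (M : ZMod q) * (-((wy q M : ℤ) : ZMod q)) = 1 := by
  have h1 := congrArg (Int.cast : ℤ → ZMod q) (wxy hc)
  push_cast at h1
  have hq0 : ((q : ℕ) : ZMod q) = 0 := ZMod.natCast_self q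
  linear_combination h1 - ((wx q M : ℤ) : ZMod q) * hq0

theorem image_eq (hc : Nat.Coprime q M) (a : ZMod q) :
    (fun v : Fin 2 → ZMod q =>
      v ᵥ* (((gw hc : SL(2, ℤ)) : Matrix (Fin 2) (Fin 2) ℤ).map (Int.cast : ℤ → ZMod q))) ''
        {v | v 0 = a} = ((rowS q (a * ((wy q M : ℤ) : ZMod q)) : Finset (Fin 2 → ZMod q)) :
          Set (Fin 2 → ZMod q)) := by
  have hq0 : ((q : ℕ) : ZMod q) = 0 := ZMod.natCast_self q
  have hMy := My hc
  ext v
  simp only [Set.mem_image, Set.mem_ofPred_eq, Finset.mem_coe, mem_rowS]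
  constructor
  · rintro ⟨u, hu, rfl⟩
    simp only [gw, Matrix.vecMul, dotProduct, Fin.sum_univ_two, Matrix.map_apply, Matrix.of_apply,
      Matrix.cons_val_zero, Matrix.cons_val_one, Matrix.cons_val', Matrix.cons_val_fin_one]
    push_cast
    rw [hu, hq0, mul_zero, add_zero]
  · intro hv
    refine ⟨![a, (v 0 - a * ((wx q M : ℤ) : ZMod q)) * (-((wy q M : ℤ) : ZMod q))], rfl, ?_⟩
    funext i
    fin_cases i
    · simp only [gw, Matrix.vecMul, dotProduct, Fin.sum_univ_two, Matrix.map_apply, Matrix.of_apply,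
        Matrix.cons_val_zero, Matrix.cons_val_one, Matrix.cons_val', Matrix.cons_val_fin_one,
        Fin.zero_eta, Fin.isValue]
      push_cast
      linear_combination (v 0 - a * ((wx q M : ℤ) : ZMod q)) * hMy
    · simp only [gw, Matrix.vecMul, dotProduct, Fin.sum_univ_two, Matrix.map_apply, Matrix.of_apply,
        Matrix.cons_val_zero, Matrix.cons_val_one, Matrix.cons_val', Matrix.cons_val_fin_one,
        Fin.mk_one, Fin.isValue]
      push_cast
      rw [hq0, mul_zero, add_zero, hv]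

theorem zero_notMem (hc : Nat.Coprime q M) (a : ZMod q) (ha : a ≠ 0) :
    (0 : Fin 2 → ZMod q) ∉ rowS q (a * ((wy q M : ℤ) : ZMod q)) := by
  rw [mem_rowS]
  intro h
  apply ha
  have hMy := My hc
  have h' : a * ((wy q M : ℤ) : ZMod q) = 0 := h.symm
  calc a = a * ((M : ZMod q) * (-((wy q M : ℤ) : ZMod q))) := by rw [hMy, mul_one]
    _ = -(M : ZMod q) * (a * ((wy q M : ℤ) : ZMod q)) := by ring
    _ = 0 := by rw [h', mul_zero]

end Ser

/-- **W-A1.** -/
theorem coe_w_uB (hc : Nat.Coprime q M) (a : ZMod q) (ha : a ≠ 0) :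
    ((w hc (uB q M a) : FB (F1Q q M)) : LaurentSeries Kbar) =
      P.uSer q (rowS q (a * ((wy q M : ℤ) : ZMod q))) := by
  apply ModularCurve.qExpand_injective (R := Kbar) (q * M * q)
  rw [qExpand_w, Psi_uB, P.uaLL, compLL_algebraMap, texpLL_algebraMap]
  apply texpB_eq
  have h2 := P.hasTExp_redSet q (rowS q (a * ((wy q M : ℤ) : ZMod q))) (Ser.zero_notMem hc a ha)
  have h3 := Lib.EtaUnit.hasTExp_tri' (N := q * M * q) h2 (q : ℤ) 0 1 Ser.qpos one_pos (q * M * q)
    (by push_cast; ring) 1 (by simp)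
  rw [twist_one] at h3
  refine P.Trans.hasTExp_congr h3 fun τ => ?_
  show _ = P.ua q a (wG hc • τ)
  rw [Ser.wG_smul, P.ua_smul_eq, P.colSet_eq_redSet, P.image_redSet, Ser.image_eq]

end Fermat.Agent.S43.Ops

end
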