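/-
Row 37 (S43), block OPS, sub-block W (helper297).  **THE GALOIS TWIST OF `w`.**
If `σ ζ_q = ζ_q ^ e` (`W.ActsBy σ e`) then
* `galF_w  : σ (w u) = w (⟨e⟩⁻¹ (σ u))` on `FB (F1Q q M)`;       `galF_w0 : σ (w0 v) = w0 (σ v)` on `FB F0`;
* on the Kummer modules `W1 (F1Q q M) n`: `wW hc n`, `diaW q M d n`, `rho_wW`, `wW_wW`, `wW_diaW`, `diaW_mul`, `rho_diaW`.
-/
import Fermat.Agent.S43.Ops.W.Ser
import Fermat.Agent.S43.Ops.W.Jd
import Fermat.Agent.S43.Ops.W.GalSer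

set_option autoImplicit false

noncomputable section

namespace Fermat.Agent.S43.Ops

open ModularCurve UpperHalfPlane CongruenceSubgroup
open Fermat.Agent.S24 Fermat.Agent.S24.B Fermat.Agent.GAL.Mult Fermat.Agent.S48.BB
open Fermat.Agent.S48.BB.U Fermat.Agent.S48.BB.T Fermat.Agent.S48.BB.E Fermat.Agent.S48.BB.M
open Fermat.Agent.GAL.E (GQ)
open scoped MatrixGroups

variable {q M : ℕ} [NeZero q] [NeZero M]

/-- `w0` is defined over `ℚ`. -/
theorem galF_w0 (hq : q.Prime) (hc : Nat.Coprime q M) (σ : GQ)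
    (v : FB (modularFunctionFieldFull (q * M))) :
    galF (modularFunctionFieldFull (q * M)) σ (w0 hc v) =
      w0 hc (galF (modularFunctionFieldFull (q * M)) σ v) := by
  refine galF_comm_of_gen (divisorExpansions (q * M)) rfl σ (w0 hc).toAlgHom (w0 hc).toAlgHom ?_ v
  intro f hf
  obtain ⟨f', hf'⟩ := exists_rat_w0 hq hc f hf
  show galF _ σ (w0 hc (ofQ f)) = w0 hc (ofQ f)
  rw [hf', galF_ofQ]

theorem galF_alphaB01 (σ : GQ) (v : FB (modularFunctionFieldFull (q * M))) :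
    galF (F1Q q M) σ (alphaB (F0_le_F1 q M) v) =
      alphaB (F0_le_F1 q M) (galF (modularFunctionFieldFull (q * M)) σ v) := by
  apply Subtype.ext
  rw [coe_galF, coe_alphaB, coe_alphaB, coe_galF]

theorem uB_zero : uB q M 0 = 0 := by
  apply Subtype.ext
  rw [uB, coe_ofQ]
  show coeffEmb Kbar (uQ q 0) = 0
  rw [P.uQ_zero, map_zero]

theorem image_tw_rowS [DecidableEq (Fin 2 → ZMod q)] (e : (ZMod q)ˣ) (b : ZMod q) :
    (rowS q b).image (W.tw e) = rowS q (b * (e : ZMod q)) := by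
  ext v
  rw [Finset.mem_image, mem_rowS]
  constructor
  · rintro ⟨v', hv', rfl⟩
    rw [mem_rowS] at hv'
    show v' 1 * (e : ZMod q) = _
    rw [hv']
  · intro hv
    refine ⟨![v 0, v 1 * ((e⁻¹ : (ZMod q)ˣ) : ZMod q)], ?_, ?_⟩
    · rw [mem_rowS]
      show v 1 * ((e⁻¹ : (ZMod q)ˣ) : ZMod q) = b
      rw [hv, mul_assoc, Units.mul_inv, mul_one]
    · funext i
      fin_cases i
      · rfl
      · show v 1 * ((e⁻¹ : (ZMod q)ˣ) : ZMod q) * (e : ZMod q) = v 1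
        rw [mul_assoc, Units.inv_mul, mul_one]

/-- the twist on the generators `u_a` -/
theorem galF_w_uB (hc : Nat.Coprime q M) {σ : GQ} {e : (ZMod q)ˣ} (h : W.ActsBy σ e) (a : ZMod q) :
    galF (F1Q q M) σ (w hc (uB q M a)) = w hc (uB q M (a * (e : ZMod q))) := by
  classical
  by_cases ha : a = 0
  · rw [ha, zero_mul, uB_zero, map_zero, map_zero]
  · have hae : a * (e : ZMod q) ≠ 0 := fun h0 => ha (by
      have := congrArg (· * ((e⁻¹ : (ZMod q)ˣ) : ZMod q)) h0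
      simpa [mul_assoc] using this)
    apply Subtype.ext
    rw [coe_galF, coe_w_uB hc a ha, coe_w_uB hc _ hae, W.coeffMap_uSer h, image_tw_rowS]
    congr 2
    ring

/-- **The Galois twist of the Atkin-Lehner involution.** -/
theorem galF_w (hq : q.Prime) (hc : Nat.Coprime q M) {σ : GQ} {e : (ZMod q)ˣ} (h : W.ActsBy σ e)
    (u : FB (F1Q q M)) :
    galF (F1Q q M) σ (w hc u) = w hc (dia q M e⁻¹ (galF (F1Q q M) σ u)) := by
  refine galF_comm_of_gen _ F1Q_eq_adjoin' σ (w hc).toAlgHom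
    ((w hc).toAlgHom.comp (dia q M e⁻¹).toAlgHom) ?_ u
  rintro f (⟨a, ha⟩ | hf)
  · rw [ofQ_eq_uB ha]
    show galF (F1Q q M) σ (w hc (uB q M a)) = w hc (dia q M e⁻¹ (uB q M a))
    rw [dia_uB, inv_inv, galF_w_uB hc h]
  · rw [ofQ_eq_alphaB hf]
    show galF (F1Q q M) σ (w hc (alphaB _ _)) = w hc (dia q M e⁻¹ (alphaB _ _))
    rw [dia_alphaB, w_alphaB, galF_alphaB01, galF_w0 hq, galF_ofQ]

/-! ### The Kummer modules -/

/-- `w` on the Kummer module. -/
def wW (hc : Nat.Coprime q M) (n : ℕ) : AddMonoid.End (W1 (F1Q q M) n) := autW (w hc) n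

variable (q M) in
/-- the diamond operators on the Kummer module. -/
def diaW (d : (ZMod q)ˣ) (n : ℕ) : AddMonoid.End (W1 (F1Q q M) n) := autW (dia q M d) n

theorem diaW_one (n : ℕ) : diaW q M 1 n = 1 := by
  rw [diaW, map_one, autW_one]

theorem diaW_mul (d d' : (ZMod q)ˣ) (n : ℕ) : diaW q M (d * d') n = diaW q M d n * diaW q M d' n := by
  rw [diaW, map_mul, autW_mul]
  rfl

theorem diaW_neg_one (n : ℕ) : diaW q M (-1) n = 1 := by
  rw [diaW, dia_neg_one, autW_one]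

theorem commute_rho_diaW (d : (ZMod q)ˣ) (n : ℕ) (σ : GQ) :
    Commute (rho (F1Q q M) n σ) (diaW q M d n) :=
  commute_rho_autW _ (fun σ u => galF_dia d σ u) n σ

theorem wW_wW (hc : Nat.Coprime q M) (n : ℕ) (x : W1 (F1Q q M) n) : wW hc n (wW hc n x) = x := by
  obtain ⟨u, rfl⟩ := cls_surjective x
  rw [wW, autW_cls, autW_cls]
  refine congrArg cls (Subtype.ext (Units.ext ?_))
  exact w_w hc _

theorem wW_diaW (hc : Nat.Coprime q M) (d : (ZMod q)ˣ) (n : ℕ) (x : W1 (F1Q q M) n) :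
    wW hc n (diaW q M d n x) = diaW q M d⁻¹ n (wW hc n x) := by
  obtain ⟨u, rfl⟩ := cls_surjective x
  rw [wW, diaW, diaW, autW_cls, autW_cls, autW_cls, autW_cls]
  refine congrArg cls (Subtype.ext (Units.ext ?_))
  exact w_dia hc d _

/-- **The Galois twist on the Kummer module**: `ρ(σ) w = w ⟨e⟩⁻¹ ρ(σ)`. -/
theorem rho_wW (hq : q.Prime) (hc : Nat.Coprime q M) {σ : GQ} {e : (ZMod q)ˣ} (h : W.ActsBy σ e)
    (n : ℕ) (x : W1 (F1Q q M) n) :
    rho (F1Q q M) n σ (wW hc n x) = wW hc n (diaW q M e⁻¹ n (rho (F1Q q M) n σ x)) := by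
  obtain ⟨u, rfl⟩ := cls_surjective x
  rw [wW, diaW, autW_cls, rho_cls, rho_cls, autW_cls, autW_cls]
  refine congrArg cls (Subtype.ext (Units.ext ?_))
  exact galF_w hq hc h _

end Fermat.Agent.S43.Ops

end
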